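/-
S16, package EIS (helper91): the weight-2 Eisenstein series of level `p`,
`E'_p(z) = (p E2(p z) - E2(z)) / 24`, as a modular form on `Γ₀(p)`.
-/
import Mathlib
import Fermat.Prelude.Def_ModularForm_HeckeOperator
import Fermat.Prelude.Thm_CongruenceSubgroup_one_mem_strictPeriods_Gamma0
import Fermat.Agent.S23.H21.SepForm

set_option autoImplicit false

namespace Fermat.Agent.S16.H91

open UpperHalfPlane ModularForm CongruenceSubgroup Filter Topology Matrix.SpecialLinearGroup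
open EisensteinSeries
open scoped MatrixGroups Manifold ModularForm

noncomputable section

/-- The weight 2 Eisenstein function of level `p`: `24⁻¹ (E2 ∣[2] diag(p,1) − E2)`, i.e.
`z ↦ (p E2(p z) − E2(z)) / 24`. -/
def eisFun (p : ℕ) : ℍ → ℂ := (24 : ℂ)⁻¹ • (E2 ∣[(2 : ℤ)] heckeDiagMatrix p - E2)

theorem eisFun_apply (p : ℕ) [NeZero p] (z : ℍ) :
    eisFun p z = ((p : ℂ) * E2 (heckeDiagMatrix p • z) - E2 z) / 24 := by
  simp only [eisFun, Pi.smul_apply, Pi.sub_apply, smul_eq_mul,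
    slash_heckeDiagMatrix_apply 2 (NeZero.ne p)]
  norm_num
  ring

/-- `D2 γ` is bounded at `i∞`. -/
theorem isBoundedAtImInfty_D2 (γ : SL(2, ℤ)) : IsBoundedAtImInfty (D2 γ) := by
  rw [isBoundedAtImInfty_iff]
  refine ⟨2 * Real.pi, 1, fun z hz => ?_⟩
  by_cases hc : γ 1 0 = 0
  · simp only [D2, hc, Int.cast_zero, mul_zero, zero_div, norm_zero]
    positivity
  · have hc1 : (1 : ℝ) ≤ |((γ 1 0 : ℤ) : ℝ)| := by
      have : (1 : ℤ) ≤ |γ 1 0| := Int.one_le_abs hc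
      exact_mod_cast this
    have hden : |((γ 1 0 : ℤ) : ℝ)| * z.im ≤ ‖denom γ z‖ := by
      have him : (denom γ z).im = ((γ 1 0 : ℤ) : ℝ) * z.im := by
        rw [ModularGroup.denom_apply]
        simp
      calc |((γ 1 0 : ℤ) : ℝ)| * z.im = |(denom γ z).im| := by
            rw [him, abs_mul, abs_of_pos z.im_pos]
        _ ≤ ‖denom γ z‖ := Complex.abs_im_le_norm _
    have hpos : 0 < |((γ 1 0 : ℤ) : ℝ)| * z.im := by
      have := z.im_pos
      positivity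
    have hden0 : 0 < ‖denom γ z‖ := lt_of_lt_of_le hpos hden
    simp only [D2, norm_div, norm_mul, Complex.norm_ofNat, Complex.norm_real, Real.norm_eq_abs,
      abs_of_pos Real.pi_pos, Complex.norm_I, mul_one, Complex.norm_intCast]
    rw [div_le_iff₀ hden0]
    calc 2 * Real.pi * |((γ 1 0 : ℤ) : ℝ)| ≤ 2 * Real.pi * (|((γ 1 0 : ℤ) : ℝ)| * z.im) := by
          have : |((γ 1 0 : ℤ) : ℝ)| ≤ |((γ 1 0 : ℤ) : ℝ)| * z.im :=
            le_mul_of_one_le_right (abs_nonneg _) hz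
          have hpi := Real.pi_pos
          nlinarith
      _ ≤ 2 * Real.pi * ‖denom γ z‖ := by
          have hpi := Real.pi_pos
          nlinarith

/-- `E2 ∣[2] γ` is bounded at `i∞` for every `γ ∈ SL(2,ℤ)`. -/
theorem isBoundedAtImInfty_E2_slash (γ : SL(2, ℤ)) : IsBoundedAtImInfty (E2 ∣[(2 : ℤ)] γ) := by
  rw [E2_slash_action]
  exact isBoundedAtImInfty_E2.sub ((isBoundedAtImInfty_D2 γ).const_smul_left _)

theorem D2_apply (γ : SL(2, ℤ)) (z : ℍ) :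
    D2 γ z = (2 * Real.pi * Complex.I * ((γ 1 0 : ℤ) : ℂ)) /
      (((γ 1 0 : ℤ) : ℂ) * (z : ℂ) + ((γ 1 1 : ℤ) : ℂ)) := rfl

/-- `D2 γ' ∣[2] diag(p,1) = D2 γ` when `diag(p,1) γ = γ' diag(p,1)`. -/
theorem D2_slash_heckeDiag {p : ℕ} [NeZero p] (γ γ' : SL(2, ℤ))
    (h : heckeDiagMatrix p * mapGL ℝ γ = mapGL ℝ γ' * heckeDiagMatrix p) :
    D2 γ' ∣[(2 : ℤ)] heckeDiagMatrix p = D2 γ := by
  have hp : p ≠ 0 := NeZero.ne p
  have hpC : (p : ℂ) ≠ 0 := by exact_mod_cast hp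
  -- entries
  have h10 : ((γ 1 0 : ℤ) : ℝ) = ((γ' 1 0 : ℤ) : ℝ) * p := by
    have := congrArg (fun M : GL (Fin 2) ℝ => (M : Matrix (Fin 2) (Fin 2) ℝ) 1 0) h
    simpa [Units.val_mul, Matrix.mul_apply, Fin.sum_univ_two, Fermat.Agent.S23.H21.mapGL_apply,
      val_heckeDiagMatrix hp] using this
  have h11 : ((γ 1 1 : ℤ) : ℝ) = ((γ' 1 1 : ℤ) : ℝ) := by
    have := congrArg (fun M : GL (Fin 2) ℝ => (M : Matrix (Fin 2) (Fin 2) ℝ) 1 1) h
    simpa [Units.val_mul, Matrix.mul_apply, Fin.sum_univ_two, Fermat.Agent.S23.H21.mapGL_apply,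
      val_heckeDiagMatrix hp] using this
  have h10C : ((γ 1 0 : ℤ) : ℂ) = ((γ' 1 0 : ℤ) : ℂ) * p := by exact_mod_cast h10
  have h11C : ((γ 1 1 : ℤ) : ℂ) = ((γ' 1 1 : ℤ) : ℂ) := by exact_mod_cast h11
  ext z
  rw [slash_heckeDiagMatrix_apply 2 hp, D2_apply, D2_apply, coe_heckeDiagMatrix_smul hp, h10C,
    h11C]
  have hden : ((γ' 1 0 : ℤ) : ℂ) * ((p : ℂ) * (z : ℂ)) + ((γ' 1 1 : ℤ) : ℂ) ≠ 0 := by
    have := denom_ne_zero γ z
    rw [ModularGroup.denom_apply, h10C, h11C] at this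
    convert this using 1
    ring
  have hden' : ((γ' 1 0 : ℤ) : ℂ) * (p : ℂ) * (z : ℂ) + ((γ' 1 1 : ℤ) : ℂ) ≠ 0 := by
    convert hden using 1
    ring
  field_simp
  norm_num
  ring

/-- `Γ₀(p)`-invariance of the Eisenstein function. -/
theorem eisFun_slash (p : ℕ) [NeZero p] (γ : SL(2, ℤ)) (hγ : γ ∈ Gamma0 p) :
    eisFun p ∣[(2 : ℤ)] γ = eisFun p := by
  obtain ⟨γ', hγ'⟩ := Fermat.Agent.S23.H21.exists_conj_of_mem_Gamma0 p γ hγ
  have h1 : (E2 ∣[(2 : ℤ)] heckeDiagMatrix p) ∣[(2 : ℤ)] γ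
      = E2 ∣[(2 : ℤ)] heckeDiagMatrix p - (1 / (2 * riemannZeta 2)) • D2 γ := by
    have e1 : (E2 ∣[(2 : ℤ)] heckeDiagMatrix p) ∣[(2 : ℤ)] γ
        = E2 ∣[(2 : ℤ)] (heckeDiagMatrix p * mapGL ℝ γ) := by
      rw [SlashAction.slash_mul]; rfl
    have e2 : E2 ∣[(2 : ℤ)] (mapGL ℝ γ' * heckeDiagMatrix p)
        = (E2 ∣[(2 : ℤ)] γ') ∣[(2 : ℤ)] heckeDiagMatrix p := by
      rw [SlashAction.slash_mul]; rfl
    rw [e1, hγ', e2, E2_slash_action, ← D2_slash_heckeDiag γ γ' hγ']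
    ext z
    simp only [slash_heckeDiagMatrix_apply 2 (NeZero.ne p), Pi.sub_apply, Pi.smul_apply,
      smul_eq_mul]
    ring
  rw [eisFun, ModularForm.SL_smul_slash, sub_eq_add_neg, SlashAction.add_slash,
    SlashAction.neg_slash, h1, E2_slash_action]
  congr 1
  abel

/-- Every `SL(2,ℤ)`-translate of the Eisenstein function is bounded at `i∞`. -/
theorem isBoundedAtImInfty_eisFun_slash (p : ℕ) [NeZero p] (δ : SL(2, ℤ)) :
    IsBoundedAtImInfty (eisFun p ∣[(2 : ℤ)] δ) := by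
  obtain ⟨δ', A, D, B, hAD, -, -, hdec⟩ := Fermat.Agent.S23.H21.exists_decomp p δ
  have e1 : (E2 ∣[(2 : ℤ)] heckeDiagMatrix p) ∣[(2 : ℤ)] δ
      = (E2 ∣[(2 : ℤ)] δ') ∣[(2 : ℤ)] upperTriangularGL A B D hAD := by
    have e0 : (E2 ∣[(2 : ℤ)] heckeDiagMatrix p) ∣[(2 : ℤ)] δ
        = E2 ∣[(2 : ℤ)] (heckeDiagMatrix p * mapGL ℝ δ) := by
      rw [SlashAction.slash_mul]; rfl
    rw [e0, hdec, SlashAction.slash_mul]; rfl
  rw [eisFun, ModularForm.SL_smul_slash, sub_eq_add_neg, SlashAction.add_slash,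
    SlashAction.neg_slash, e1]
  have hU : (upperTriangularGL A B D hAD : GL (Fin 2) ℝ) 1 0 = 0 := by
    show ((upperTriangularGL A B D hAD : GL (Fin 2) ℝ) : Matrix (Fin 2) (Fin 2) ℝ) 1 0 = 0
    simp [val_upperTriangularGL]
  exact ((UpperHalfPlane.IsBoundedAtImInfty.slash 2 hU (isBoundedAtImInfty_E2_slash δ')).add
    (isBoundedAtImInfty_E2_slash δ).neg_left).const_smul_left _

theorem Gamma0_le_SL (N : ℕ) : (Gamma0 N : Subgroup (GL (Fin 2) ℝ)) ≤ 𝒮ℒ := by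
  rintro _ ⟨γ, -, rfl⟩
  exact ⟨γ, rfl⟩

theorem mdifferentiable_eisFun (p : ℕ) : MDiff (eisFun p) :=
  ((E2_mdifferentiable.slash 2 (heckeDiagMatrix p)).sub E2_mdifferentiable).const_smul _

/-- **The weight-2 Eisenstein series of level `p`**, `E'_p(z) = (p E2(p z) − E2(z)) / 24`, as a
modular form on `Γ₀(p)`. -/
def eisP (p : ℕ) [NeZero p] : ModularForm (Gamma0 p) 2 where
  toFun := eisFun p
  slash_action_eq' γ hγ := by
    obtain ⟨γ₀, hγ₀, rfl⟩ := hγ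
    exact eisFun_slash p γ₀ hγ₀
  holo' := mdifferentiable_eisFun p
  bdd_at_cusps' hc := by
    rw [OnePoint.isBoundedAt_iff_forall_SL2Z (hc.mono (Gamma0_le_SL p))]
    intro γ _
    exact isBoundedAtImInfty_eisFun_slash p γ

theorem coe_eisP (p : ℕ) [NeZero p] : (eisP p : ℍ → ℂ) = eisFun p := rfl

theorem eisP_apply (p : ℕ) [NeZero p] (z : ℍ) :
    eisP p z = ((p : ℂ) * E2 (heckeDiagMatrix p • z) - E2 z) / 24 :=
  eisFun_apply p z

end

end Fermat.Agent.S16.H91
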