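/-
S16, package EIS (helper91): the `q`-expansion of the weight-2 Eisenstein series of level `p`:
`E'_p = (p - 1)/24 + ∑_{n ≥ 1} σ'_p(n) qⁿ`, `σ'_p(n) = ∑_{d ∣ n, p ∤ d} d`.
-/
import Fermat.Agent.S16.H91.Eis
import Fermat.Prelude.Def_FLTPrelim_Modularity

set_option autoImplicit false

namespace Fermat.Agent.S16.H91

open UpperHalfPlane ModularForm CongruenceSubgroup Filter Topology Matrix.SpecialLinearGroup
open EisensteinSeries
open scoped MatrixGroups Manifold ModularForm ArithmeticFunction.sigma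

noncomputable section

/-- `σ'_p(n)`: the sum of the divisors of `n` that are not divisible by `p`. -/
def sigmaP (p n : ℕ) : ℕ := ∑ d ∈ n.divisors with ¬ p ∣ d, d

theorem sum_divisors_filter_dvd (p n : ℕ) (hp : p ≠ 0) :
    ∑ d ∈ n.divisors with p ∣ d, d = if p ∣ n then p * σ 1 (n / p) else 0 := by
  split_ifs with h
  · obtain ⟨m, rfl⟩ := h
    have hp' : 0 < p := Nat.pos_of_ne_zero hp
    rw [Nat.mul_div_cancel_left _ hp', ArithmeticFunction.sigma_one_apply, Finset.mul_sum]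
    rcases Nat.eq_zero_or_pos m with rfl | hm
    · simp
    symm
    refine Finset.sum_bij (fun e _ => p * e) ?_ ?_ ?_ ?_
    · intro e he
      rw [Finset.mem_filter, Nat.mem_divisors]
      rw [Nat.mem_divisors] at he
      exact ⟨⟨Nat.mul_dvd_mul_left p he.1, Nat.mul_ne_zero hp he.2⟩, dvd_mul_right p e⟩
    · intro a _ b _ hab
      exact Nat.eq_of_mul_eq_mul_left hp' hab
    · intro d hd
      rw [Finset.mem_filter, Nat.mem_divisors] at hd
      obtain ⟨⟨hd1, hd2⟩, e, rfl⟩ := hd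
      refine ⟨e, ?_, rfl⟩
      rw [Nat.mem_divisors]
      exact ⟨(Nat.mul_dvd_mul_iff_left hp').mp hd1, hm.ne'⟩
    · intro e _
      rfl
  · apply Finset.sum_eq_zero
    intro d hd
    rw [Finset.mem_filter, Nat.mem_divisors] at hd
    exact absurd (hd.2.trans hd.1.1) h

theorem sigmaP_add (p n : ℕ) (hp : p ≠ 0) :
    sigmaP p n + (if p ∣ n then p * σ 1 (n / p) else 0) = σ 1 n := by
  rw [← sum_divisors_filter_dvd p n hp, sigmaP, ArithmeticFunction.sigma_one_apply, add_comm]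
  exact Finset.sum_filter_add_sum_filter_not _ _ _

/-- The `q`-expansion coefficients of the Eisenstein series of level `p`. -/
def eisCoeff (p : ℕ) (n : ℕ) : ℂ := if n = 0 then ((p : ℂ) - 1) / 24 else (sigmaP p n : ℂ)

@[simp] theorem eisCoeff_zero (p : ℕ) : eisCoeff p 0 = ((p : ℂ) - 1) / 24 := by simp [eisCoeff]

theorem eisCoeff_of_ne_zero (p : ℕ) {n : ℕ} (hn : n ≠ 0) : eisCoeff p n = (sigmaP p n : ℂ) := by
  simp [eisCoeff, hn]

theorem eisCoeff_one (p : ℕ) (hp : 2 ≤ p) : eisCoeff p 1 = 1 := by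
  rw [eisCoeff_of_ne_zero p one_ne_zero, sigmaP]
  have : ¬ p ∣ 1 := by
    intro h
    have := Nat.le_of_dvd one_pos h
    omega
  rw [Nat.divisors_one, Finset.filter_singleton, if_pos this, Finset.sum_singleton]
  simp

def e2c (m : ℕ) : ℂ := if m = 0 then 1 else -24 * (σ 1 m : ℂ)

theorem hasSum_E2 (z : ℍ) :
    HasSum (fun m : ℕ => e2c m • Function.Periodic.qParam 1 (z : ℂ) ^ m) (E2 z) := by
  simpa only [Function.Periodic.qParam, Complex.ofReal_one, div_one, e2c] using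
    hasSum_qExpansion_E2 (z := z)

theorem hasSum_E2_diag (p : ℕ) [NeZero p] (z : ℍ) :
    HasSum (fun n : ℕ => (if p ∣ n then e2c (n / p) else 0) •
      Function.Periodic.qParam 1 (z : ℂ) ^ n) (E2 (heckeDiagMatrix p • z)) := by
  have hp : 0 < p := Nat.pos_of_ne_zero (NeZero.ne p)
  have h1 := hasSum_E2 (heckeDiagMatrix p • z)
  rw [Fermat.Agent.S23.H21.qParam_heckeDiag] at h1
  have hinj : Function.Injective (fun m : ℕ => p * m) :=
    fun a b h => Nat.eq_of_mul_eq_mul_left hp h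
  rw [← hinj.hasSum_iff]
  · convert h1 using 2 with m
    simp [Function.comp, Nat.mul_div_cancel_left _ hp, pow_mul]
  · intro x hx
    have : ¬ p ∣ x := fun ⟨m, hm⟩ => hx ⟨m, hm.symm⟩
    simp [this]

theorem eisCoeff_eq (p : ℕ) [NeZero p] (n : ℕ) :
    eisCoeff p n = ((p : ℂ) * (if p ∣ n then e2c (n / p) else 0) - e2c n) / 24 := by
  have hp : p ≠ 0 := NeZero.ne p
  rcases Nat.eq_zero_or_pos n with rfl | hn
  · simp [e2c]
  · rw [eisCoeff_of_ne_zero p hn.ne']
    have key := sigmaP_add p n hp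
    have keyC : (sigmaP p n : ℂ) + (if p ∣ n then (p : ℂ) * (σ 1 (n / p) : ℂ) else 0) = (σ 1 n : ℂ) := by
      rw [← key]
      split_ifs <;> push_cast <;> ring
    have hn0 : n ≠ 0 := hn.ne'
    split_ifs with h
    · have hnp : n / p ≠ 0 := by
        obtain ⟨m, rfl⟩ := h
        rw [Nat.mul_div_cancel_left _ (Nat.pos_of_ne_zero hp)]
        rintro rfl
        simp at hn
      rw [if_pos h] at keyC
      simp only [e2c, hn0, hnp, if_false]
      linear_combination keyC
    · rw [if_neg h] at keyC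
      simp only [e2c, hn0, if_false]
      linear_combination keyC

/-- **The `q`-expansion of the Eisenstein series of level `p`**, as a `HasSum`. -/
theorem hasSum_eisP (p : ℕ) [NeZero p] (z : ℍ) :
    HasSum (fun n : ℕ => eisCoeff p n • Function.Periodic.qParam 1 (z : ℂ) ^ n) (eisP p z) := by
  rw [eisP_apply]
  have h1 := (hasSum_E2_diag p z).mul_left (p : ℂ)
  have h2 := (h1.sub (hasSum_E2 z)).div_const 24
  have hfun : (fun n : ℕ => eisCoeff p n • Function.Periodic.qParam 1 (z : ℂ) ^ n) =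
      fun i : ℕ => ((p : ℂ) * (if p ∣ i then e2c (i / p) else 0) •
        Function.Periodic.qParam 1 (z : ℂ) ^ i - e2c i • Function.Periodic.qParam 1 (z : ℂ) ^ i)
          / 24 := by
    funext n
    rw [eisCoeff_eq]
    simp only [smul_eq_mul]
    ring
  rw [hfun]
  exact h2

theorem qExpansion_eisP_coeff (p : ℕ) [NeZero p] (n : ℕ) :
    (qExpansion 1 (eisP p)).coeff n = eisCoeff p n :=
  (ModularFormClass.qExpansion_coeff_unique one_pos
    (CongruenceSubgroup.one_mem_strictPeriods_Gamma0 p) (hasSum_eisP p) n).symm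

theorem qExpansion_eisP_coeff_zero (p : ℕ) [NeZero p] :
    (qExpansion 1 (eisP p)).coeff 0 = ((p : ℂ) - 1) / 24 := by
  rw [qExpansion_eisP_coeff, eisCoeff_zero]

theorem qExpansion_eisP_coeff_of_ne_zero (p : ℕ) [NeZero p] {n : ℕ} (hn : n ≠ 0) :
    (qExpansion 1 (eisP p)).coeff n = (sigmaP p n : ℂ) := by
  rw [qExpansion_eisP_coeff, eisCoeff_of_ne_zero p hn]

/-! ### Interface forms (S16 skeleton shapes) -/

theorem sigmaP_cast_int (p n : ℕ) :
    ((sigmaP p n : ℕ) : ℤ) = ∑ d ∈ n.divisors.filter (¬ p ∣ ·), (d : ℤ) := by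
  rw [sigmaP]
  push_cast
  rfl

theorem sigmaP_cast_complex (p n : ℕ) :
    ((sigmaP p n : ℕ) : ℂ) = ((∑ d ∈ n.divisors.filter (¬ p ∣ ·), (d : ℤ) : ℤ) : ℂ) := by
  rw [← sigmaP_cast_int]
  norm_cast

/-- `qCoeff` form, positive indices, with the `ℤ`-valued divisor sum of the S16 interface. -/
theorem qCoeff_eisP (p : ℕ) [NeZero p] {k : ℕ} (hk : 0 < k) :
    ModularFormClass.qCoeff (eisP p) k
      = ((∑ d ∈ k.divisors.filter (¬ p ∣ ·), (d : ℤ) : ℤ) : ℂ) := by
  rw [ModularFormClass.qCoeff]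
  exact (qExpansion_eisP_coeff_of_ne_zero p hk.ne').trans (sigmaP_cast_complex p k)

theorem qCoeff_eisP_zero (p : ℕ) [NeZero p] :
    ModularFormClass.qCoeff (eisP p) 0 = ((p : ℂ) - 1) / 24 :=
  qExpansion_eisP_coeff_zero p

/-- **U-EIS, existence form**: a weight-2 modular form on `Γ₀(p)` with constant term
`(p - 1)/24` and `n`-th coefficient `σ'_p(n) = ∑_{d ∣ n, p ∤ d} d` for `n ≥ 1`. -/
theorem exists_eisenstein (p : ℕ) [NeZero p] :
    ∃ E : ModularForm (Gamma0 p) 2,
      (qExpansion 1 E).coeff 0 = ((p : ℂ) - 1) / 24 ∧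
      ∀ n : ℕ, 0 < n →
        (qExpansion 1 E).coeff n = ((∑ d ∈ n.divisors.filter (¬ p ∣ ·), (d : ℤ) : ℤ) : ℂ) :=
  ⟨eisP p, qExpansion_eisP_coeff_zero p, fun n hn =>
    (qExpansion_eisP_coeff_of_ne_zero p hn.ne').trans (sigmaP_cast_complex p n)⟩

/-- The Eisenstein series is not a cusp form for `p ≥ 2`: its constant term is nonzero. -/
theorem qExpansion_eisP_coeff_zero_ne_zero (p : ℕ) [NeZero p] (hp : 2 ≤ p) :
    (qExpansion 1 (eisP p)).coeff 0 ≠ 0 := by
  rw [qExpansion_eisP_coeff_zero]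
  have h1 : (p : ℂ) - 1 ≠ 0 := by
    intro h
    have h2 : (p : ℂ) = 1 := by linear_combination h
    have h3 : p = 1 := by exact_mod_cast h2
    omega
  exact div_ne_zero h1 (by norm_num)

/-- **U1 (EIS), exactly the statement of `origin/helper63:Fermat/Agent/S16/UpperSkeleton.lean`**
(`sigmaP` here is definitionally the skeleton's `sigmaP`; `Γ0 p` of S20 is the same group). -/
theorem exists_eisenstein_prime (p : ℕ) [Fact p.Prime] :
    ∃ E : ModularForm (Gamma0 p) 2, (qExpansion 1 E).coeff 0 = ((p : ℂ) - 1) / 24 ∧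
      ∀ n : ℕ, 1 ≤ n → (qExpansion 1 E).coeff n = (sigmaP p n : ℂ) :=
  haveI : NeZero p := ⟨(Fact.out : p.Prime).ne_zero⟩
  ⟨eisP p, qExpansion_eisP_coeff_zero p, fun _ hn =>
    qExpansion_eisP_coeff_of_ne_zero p (Nat.one_le_iff_ne_zero.mp hn)⟩

end

end Fermat.Agent.S16.H91
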